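import Fermat.Agent.LT.T3.H315.AbelCut

/-!
# Row LT, tower T3, leaf T3.18a.2.2 `NIntC` (AS.2 cut of helper315) -- helper157, OFF-MAIN

`nIntC157 : H315.NIntC`: the `N`-integral of the test function `abelFn β` is `β`.
Spec: byte copy of `LT/T3/H315/AbelCut.lean` (helper315@4ea336ee2, sha256 446d055e).

Proof: on `[[c₁, x], [0, c₂]]` the determinant is `c₁ c₂` (constant in `x`) and
`chD614 = cosh (log |c₁| - log |c₂|) + |x|² / (2 |c₁| |c₂|)`; then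
`integral_complex_affine_sq614` and `IsEvenTest614.abel_transform` of helper614 for the slice
`E = sliceE β (log |c₁ c₂|)`, which is an even `C²` function of compact support.
-/

set_option autoImplicit false

open MeasureTheory
open Fermat.Agent.LT.T3.AS Fermat.Agent.LT.T3.H614 Fermat.Agent.LT.T3.H315

noncomputable section

namespace Fermat.Agent.LT.T3.H157

/-- The slice of a symmetric bump function is an even test function. -/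
theorem sliceE_isEvenTest157 (β : ℝ × ℝ → ℂ) (hβ : IsSymBump β) (c : ℝ) :
    ∃ R : ℝ, IsEvenTest614 (sliceE β c) R := by
  obtain ⟨hsm, hsupp, hsym⟩ := hβ
  obtain ⟨M, hM⟩ : ∃ M : ℝ, ∀ p : ℝ × ℝ, β p ≠ 0 → ‖p‖ ≤ M := by
    obtain ⟨M, hM⟩ := hsupp.isCompact.isBounded.exists_norm_le
    exact ⟨M, fun p hp => hM p (subset_tsupport _ hp)⟩
  refine ⟨2 * M + 1, ?_, ?_, ?_⟩
  · have h1 : ContDiff ℝ 2 (fun u : ℝ => (((c + u) / 2, (c - u) / 2) : ℝ × ℝ)) := by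
      fun_prop
    have h2 : ContDiff ℝ 2 β :=
      hsm.of_le (show (2 : WithTop ℕ∞) ≤ ((⊤ : ℕ∞) : WithTop ℕ∞) from
        (WithTop.coe_le_coe.2 le_top : ((2 : ℕ∞) : WithTop ℕ∞) ≤ ((⊤ : ℕ∞) : WithTop ℕ∞)))
    exact h2.comp h1
  · intro u
    unfold sliceE
    rw [hsym]
    congr 2
    ring
  · intro u hu
    by_contra h
    have h3 : ‖(((c + u) / 2, (c - u) / 2) : ℝ × ℝ)‖ ≤ M := hM _ h
    rw [Prod.norm_def] at h3
    have h4 : |(c + u) / 2| ≤ M := (le_max_left _ _).trans h3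
    have h5 : |(c - u) / 2| ≤ M := (le_max_right _ _).trans h3
    have h6 : |u| ≤ 2 * M := by
      have e : u = (c + u) / 2 - (c - u) / 2 := by ring
      calc |u| = |(c + u) / 2 - (c - u) / 2| := by rw [← e]
        _ ≤ |(c + u) / 2| + |(c - u) / 2| := abs_sub _ _
        _ ≤ 2 * M := by linarith
    linarith

/-- The value of `chD614` on `[[c₁, x], [0, c₂]]`. -/
theorem chD614_upperGL157 (c₁ c₂ : ℂˣ) (x : ℂ) :
    chD614 ((upperGL c₁ c₂ x : GL (Fin 2) ℂ) : Matrix (Fin 2) (Fin 2) ℂ)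
      = Real.cosh (Real.log ‖(c₁ : ℂ)‖ - Real.log ‖(c₂ : ℂ)‖)
        + (1 / (2 * ‖(c₁ : ℂ)‖ * ‖(c₂ : ℂ)‖)) * ‖x‖ ^ 2 := by
  have n1 : 0 < ‖(c₁ : ℂ)‖ := norm_pos_iff.2 c₁.ne_zero
  have n2 : 0 < ‖(c₂ : ℂ)‖ := norm_pos_iff.2 c₂.ne_zero
  have hm : ((upperGL c₁ c₂ x : GL (Fin 2) ℂ) : Matrix (Fin 2) (Fin 2) ℂ)
      = !![(c₁ : ℂ), x; 0, (c₂ : ℂ)] := rfl
  rw [hm]
  unfold chD614 hsq614
  rw [Matrix.det_fin_two_of]
  simp only [Matrix.of_apply, Matrix.cons_val', Matrix.cons_val_zero, Matrix.cons_val_one,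
    Matrix.cons_val_fin_one, mul_zero, sub_zero, norm_mul, norm_zero]
  rw [Real.cosh_eq, Real.exp_sub, Real.exp_log n1, Real.exp_log n2, neg_sub, Real.exp_sub,
    Real.exp_log n1, Real.exp_log n2]
  field_simp
  ring

/-- The determinant of `[[c₁, x], [0, c₂]]`. -/
theorem det_upperGL157 (c₁ c₂ : ℂˣ) (x : ℂ) :
    ((upperGL c₁ c₂ x : GL (Fin 2) ℂ) : Matrix (Fin 2) (Fin 2) ℂ).det = (c₁ : ℂ) * (c₂ : ℂ) := by
  have hm : ((upperGL c₁ c₂ x : GL (Fin 2) ℂ) : Matrix (Fin 2) (Fin 2) ℂ)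
      = !![(c₁ : ℂ), x; 0, (c₂ : ℂ)] := rfl
  rw [hm, Matrix.det_fin_two_of]
  ring

/-- **AS.2.2 `NIntC`.**  The `N`-integral of the test function `abelFn β` is `β`. -/
theorem nIntC157 : NIntC := by
  intro β hβ c₁ c₂
  have n1 : 0 < ‖(c₁ : ℂ)‖ := norm_pos_iff.2 c₁.ne_zero
  have n2 : 0 < ‖(c₂ : ℂ)‖ := norm_pos_iff.2 c₂.ne_zero
  obtain ⟨R, hE⟩ :=
    sliceE_isEvenTest157 β hβ (Real.log ‖(c₁ : ℂ)‖ + Real.log ‖(c₂ : ℂ)‖)
  have hpt : ∀ x : ℂ, abelFn β (upperGL c₁ c₂ x)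
      = abelInv614 (sliceE β (Real.log ‖(c₁ : ℂ)‖ + Real.log ‖(c₂ : ℂ)‖))
          (Real.cosh (Real.log ‖(c₁ : ℂ)‖ - Real.log ‖(c₂ : ℂ)‖)
            + (1 / (2 * ‖(c₁ : ℂ)‖ * ‖(c₂ : ℂ)‖)) * ‖x‖ ^ 2) := by
    intro x
    unfold abelFn
    rw [det_upperGL157, chD614_upperGL157, norm_mul, Real.log_mul n1.ne' n2.ne']
  simp_rw [hpt]
  rw [integral_complex_affine_sq614 _ _
    (by positivity : 0 < 1 / (2 * ‖(c₁ : ℂ)‖ * ‖(c₂ : ℂ)‖))]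
  have hab := hE.abel_transform (Real.log ‖(c₁ : ℂ)‖ - Real.log ‖(c₂ : ℂ)‖)
  have hval : sliceE β (Real.log ‖(c₁ : ℂ)‖ + Real.log ‖(c₂ : ℂ)‖)
      (Real.log ‖(c₁ : ℂ)‖ - Real.log ‖(c₂ : ℂ)‖)
      = β (Real.log ‖(c₁ : ℂ)‖, Real.log ‖(c₂ : ℂ)‖) := by
    unfold sliceE
    congr 2 <;> ring
  rw [hval] at hab
  rw [← hab, ← Complex.real_smul, smul_smul]
  congr 1
  field_simp

end Fermat.Agent.LT.T3.H157

end
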